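import Fermat.Agent.Lib.Eis.Geom.ResidueGen
import Fermat.Agent.Lib.Igusa.GaussAdjoin

/-!
# P11 (D3, part C): common denominators in the modular function field

For `ℓ ∤ N` and a finite family `v` in `F = ℚ(X₀(N))`: there are `ψ(N)` elements `b i` of the Gauss
valuation ring with residues independent over `𝔽_ℓ[j̄]`, a unit `t` of the Gauss ring and `k` such
that `ℓ^k t v_m = ∑ P_{m,i}(j) b_i` with `P_{m,i} ∈ ℤ_(ℓ)[X]`.
-/

set_option autoImplicit false
set_option linter.unusedSectionVars false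
set_option linter.style.haveILetI false

open HahnSeries ModularCurve ModularCurve.IgusaScheme Polynomial
open Fermat.Agent.Igusa

noncomputable section

namespace Fermat.Agent.Eis

variable (ℓ : ℕ) [Fact ℓ.Prime] (N : ℕ) [NeZero N]

set_option quotPrecheck false in
local notation "ℤℓ" => ↥(GaloisRep.ratLocalizedAt ℓ)

set_option quotPrecheck false in
local notation "F" => ↥(modularFunctionFieldFull N)

set_option synthInstance.maxHeartbeats 400000 in
set_option maxHeartbeats 1000000 in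
/-- common denominators with respect to an independent family of the Gauss ring -/
theorem ed3_exists_repr (hℓN : ¬ ℓ ∣ N) {d : ℕ} (v : Fin d → F) :
    ∃ (n : ℕ) (b : Fin n → ↥(gaussRing ℓ N)), (coreFin ℓ N).Indep b ∧
      ∃ (t : F) (ht : t ∈ gaussRing ℓ N), gaussRho ℓ N ⟨t, ht⟩ ≠ 0 ∧
      ∃ (k : ℕ) (P : Fin d → Fin n → ℤℓ[X]),
        ∀ m, ((ℓ : ℕ) : F) ^ k * (t * v m) = ∑ i, aeval (jFull N) (P m i) * (b i : F) := by
  classical
  have hκ := gaussRho_coreOf_incl_mem_kappa ℓ N (transcendental_zl_jFull ℓ N)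
    (jFull_mem_gaussRing ℓ N) (igInst_transcendental_gaussRho_jFull ℓ N)
    (gaussRho_jFull_mem_kappa ℓ N)
  obtain ⟨b, hbG, hb⟩ := ResidueCore.exists_indep_of_le_finrank_field (D := coreFin ℓ N)
    (κ := ↥(kappa ℓ)) hκ (igGaussGens ℓ N) (eg_dedekindPsi_le_finrank_residue ℓ N hℓN)
  have hn := finrank_adjoin_jFull_le N
  have hxK : jFull N ∈ IntermediateField.adjoin ℚ {jFull N} :=
    IntermediateField.mem_adjoin_simple_self ℚ (jFull N)
  have hjx : jFull N ∈ Subfield.closure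
      ((Algebra.adjoin ℤℓ {jFull N} : Subalgebra ℤℓ F) : Set F) :=
    Subfield.subset_closure (Algebra.self_mem_adjoin_singleton ℤℓ (jFull N))
  letI : Algebra ↥(Algebra.adjoin ℤℓ {jFull N}) ↥(IntermediateField.adjoin ℚ {jFull N}) :=
    (adjoinToQj ℓ hxK).toAlgebra
  haveI : IsScalarTower ↥(Algebra.adjoin ℤℓ {jFull N})
      ↥(IntermediateField.adjoin ℚ {jFull N}) F :=
    IsScalarTower.of_algebraMap_eq (fun a => rfl)
  haveI : FaithfulSMul ↥(Algebra.adjoin ℤℓ {jFull N})
      ↥(IntermediateField.adjoin ℚ {jFull N}) := by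
    rw [faithfulSMul_iff_algebraMap_injective]
    intro a a' h
    apply Subtype.ext
    exact congrArg (fun z : ↥(IntermediateField.adjoin ℚ {jFull N}) => (z : F)) h
  haveI : IsFractionRing ↥(Algebra.adjoin ℤℓ {jFull N})
      ↥(IntermediateField.adjoin ℚ {jFull N}) := by
    apply IsFractionRing.of_field
    intro z
    obtain ⟨a, s, h⟩ := exists_div_of_mem_adjoin_jFull ℓ hjx z.2
    exact ⟨a, s, Subtype.ext h⟩
  haveI : UniqueFactorizationMonoid ↥(Algebra.adjoin ℤℓ {jFull N}) :=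
    ufm_adjoin ℓ (transcendental_zl_jFull ℓ N)
  haveI : FiniteDimensional ↥(IntermediateField.adjoin ℚ {jFull N}) F :=
    finiteDimensional_adjoin_jFull N
  -- the `b i` span `F` over `ℚ(j)`
  have hspan := ResidueCore.span_eq_top_of_indep
    (K := ↥(IntermediateField.adjoin ℚ {jFull N})) (D := coreFin ℓ N) hb hn
  have hrepr : ∀ m, ∃ c : Fin (dedekindPsi N) → ↥(IntermediateField.adjoin ℚ {jFull N}),
      ∑ i, c i • ((b i : ↥(coreFin ℓ N).O) : F) = v m := by
    intro m
    have hx : v m ∈ Submodule.span ↥(IntermediateField.adjoin ℚ {jFull N})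
        (Set.range fun i => ((b i : ↥(coreFin ℓ N).O) : F)) := by
      rw [hspan]; trivial
    exact (Submodule.mem_span_range_iff_exists_fun _).mp hx
  choose c hc using hrepr
  obtain ⟨T, hT⟩ := IsLocalization.exist_integer_multiples
    (nonZeroDivisors ↥(Algebra.adjoin ℤℓ {jFull N}))
    (Finset.univ : Finset (Fin d × Fin (dedekindPsi N))) (fun mi => c mi.1 mi.2)
  choose a ha using fun mi => hT mi (Finset.mem_univ mi)
  have hTv : ∀ m, ((T : ↥(Algebra.adjoin ℤℓ {jFull N})) : F) * v m =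
      ∑ i, ((a (m, i) : ↥(Algebra.adjoin ℤℓ {jFull N})) : F) *
        ((b i : ↥(coreFin ℓ N).O) : F) := by
    intro m
    rw [← hc m, Finset.mul_sum]
    refine Finset.sum_congr rfl fun i _ => ?_
    have h1 := ha (m, i)
    have h2 : ((a (m, i) : ↥(Algebra.adjoin ℤℓ {jFull N})) : F) =
        ((T : ↥(Algebra.adjoin ℤℓ {jFull N})) : F) * ((c m i : ↥(IntermediateField.adjoin ℚ {jFull N})) : F) := by
      have := congrArg (fun z : ↥(IntermediateField.adjoin ℚ {jFull N}) => (z : F)) h1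
      rw [Algebra.smul_def] at this
      exact this
    rw [h2, Algebra.smul_def]
    simp only [IntermediateField.algebraMap_apply]
    ring
  -- normalise `T`
  have hT0 : (T : ↥(Algebra.adjoin ℤℓ {jFull N})) ≠ 0 := nonZeroDivisors.coe_ne_zero T
  obtain ⟨k, t', ht', _, ht'l⟩ := exists_primitive_of_prime
    (ellA_prime ℓ (transcendental_zl_jFull ℓ N))
    (fun _ : Unit => (T : ↥(Algebra.adjoin ℤℓ {jFull N}))) () hT0
  have hTk : (T : ↥(Algebra.adjoin ℤℓ {jFull N})) = ellA ℓ (jFull N) ^ k * t' () := ht' ()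
  have htO : ((t' () : ↥(Algebra.adjoin ℤℓ {jFull N})) : F) ∈ gaussRing ℓ N :=
    mem_gaussRing_of_mem_adjoin ℓ (jFull_mem_gaussRing ℓ N) (t' ())
  have htρ : gaussRho ℓ N ⟨((t' () : ↥(Algebra.adjoin ℤℓ {jFull N})) : F), htO⟩ ≠ 0 := by
    intro h0
    exact ht'l ((coreFin ℓ N).dvd_of_ρ_incl_eq_zero h0)
  -- polynomials
  have hP : ∀ mi : Fin d × Fin (dedekindPsi N), ∃ P : ℤℓ[X],
      aeval (jFull N) P = ((a mi : ↥(Algebra.adjoin ℤℓ {jFull N})) : F) := by
    intro mi
    have h : ((a mi : ↥(Algebra.adjoin ℤℓ {jFull N})) : F) ∈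
        (Polynomial.aeval (jFull N) : ℤℓ[X] →ₐ[ℤℓ] F).range := by
      rw [← Algebra.adjoin_singleton_eq_range_aeval]
      exact (a mi).2
    exact h
  choose P hP using hP
  refine ⟨dedekindPsi N, b, hb, _, htO, htρ, k, fun m i => P (m, i), fun m => ?_⟩
  have h3 : ((ℓ : ℕ) : F) ^ k * (((t' () : ↥(Algebra.adjoin ℤℓ {jFull N})) : F) * v m) =
      ((T : ↥(Algebra.adjoin ℤℓ {jFull N})) : F) * v m := by
    rw [hTk, Subalgebra.coe_mul, Subalgebra.coe_pow, coe_ellA]
    ring
  rw [h3, hTv m]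
  refine Finset.sum_congr rfl fun i _ => ?_
  rw [hP]

end Fermat.Agent.Eis
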