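import Fermat.Agent.Lib.Eis.Geom.D3.EchelonCore
import Fermat.Agent.Lib.Eis.Geom.D3.EchelonRepr

/-!
# P11 (D3, part C): the `ℓ`-adic echelon lemma in the modular function field

`ed3_exists_reduced_family_gen`: for `ℓ ∤ N`, every finite `ℚ`-linearly independent family `v` in
`F = ℚ(X₀(N))` spans a space having a basis of elements of the Gauss valuation ring whose residues
are `𝔽_ℓ`-linearly independent.
-/

set_option autoImplicit false
set_option linter.unusedSectionVars false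

open HahnSeries ModularCurve ModularCurve.IgusaScheme Polynomial
open Fermat.Agent.Igusa

noncomputable section

namespace Fermat.Agent.Eis

variable (ℓ : ℕ) [Fact ℓ.Prime] (N : ℕ) [NeZero N]

set_option quotPrecheck false in
local notation "ℤℓ" => ↥(GaloisRep.ratLocalizedAt ℓ)

set_option quotPrecheck false in
local notation "F" => ↥(modularFunctionFieldFull N)

omit [Fact ℓ.Prime] in
theorem ed3_rat_smul_eq (q : ℤℓ) (x : F) : ((q : ℚ)) • x = algebraMap ℤℓ F q * x := by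
  rw [Algebra.smul_def]
  rfl

/-- **transfer of the echelon lemma** along an orthonormal system `B` of the Gauss ring -/
theorem ed3_reduced_of_coords {ι : Type*} [Fintype ι] (B : ι → F)
    (hB : ∀ k, B k ∈ gaussRing ℓ N)
    (hBind : ∀ (η : ι → ℤℓ) (hmem : (∑ k, algebraMap ℤℓ F (η k) * B k) ∈ gaussRing ℓ N),
      gaussRho ℓ N ⟨∑ k, algebraMap ℤℓ F (η k) * B k, hmem⟩ = 0 → ∀ k, zlRed ℓ (η k) = 0)
    (t : F) (ht : t ∈ gaussRing ℓ N) (htρ : gaussRho ℓ N ⟨t, ht⟩ ≠ 0)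
    {d : ℕ} (v : Fin d → F) (hv : LinearIndependent ℚ v) (c : Fin d → ι → ℚ)
    (hc : ∀ m, t * v m = ∑ k, c m k • B k) :
    ∃ g : Fin d → F, (∀ i, g i ∈ Submodule.span ℚ (Set.range v)) ∧
      ∃ hg : ∀ i, g i ∈ gaussRing ℓ N,
        LinearIndependent (ZMod ℓ) (fun i => gaussRho ℓ N ⟨g i, hg i⟩) := by
  classical
  have hp : ℓ.Prime := Fact.out
  have hlQ : (ℓ : ℚ) ≠ 0 := by exact_mod_cast hp.ne_zero
  have ht0 : t ≠ 0 := by
    rintro rfl
    apply htρ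
    have : (⟨0, ht⟩ : ↥(gaussRing ℓ N)) = 0 := rfl
    rw [this, map_zero]
  have htinv : t⁻¹ ∈ gaussRing ℓ N := inv_mem_gaussRing_of_gaussRho_ne_zero ℓ N ⟨t, ht⟩ htρ
  -- the linear map `Ψ`
  obtain ⟨Ψ, hΨ⟩ : ∃ Ψ : (ι → ℚ) →ₗ[ℚ] F, ∀ h, Ψ h = t⁻¹ * ∑ k, h k • B k :=
    ⟨(LinearMap.mulLeft ℚ t⁻¹).comp (Fintype.linearCombination ℚ B), fun h => by
      rw [LinearMap.comp_apply, Fintype.linearCombination_apply, LinearMap.mulLeft_apply]⟩
  have hΨc : ∀ m, Ψ (c m) = v m := fun m => by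
    rw [hΨ, ← hc m, ← mul_assoc, inv_mul_cancel₀ ht0, one_mul]
  have hcli : LinearIndependent ℚ c := by
    apply LinearIndependent.of_comp Ψ
    have : Ψ ∘ c = v := funext hΨc
    rw [this]
    exact hv
  obtain ⟨g₀, hg₀span, hg₀mem, hg₀ind⟩ := ed3_echelon ℓ d c hcli
  -- membership in the Gauss ring of integral combinations
  have hsum_mem : ∀ η : ι → ℤℓ, (∑ k, algebraMap ℤℓ F (η k) * B k) ∈ gaussRing ℓ N := fun η =>
    Subring.sum_mem _ fun k _ =>
      Subring.mul_mem _ (algebraMap_zl_mem_gaussRing ℓ N (η k)) (hB k)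
  have hΨ_int : ∀ η : ι → ℤℓ, Ψ (fun k => (η k : ℚ)) = t⁻¹ * ∑ k, algebraMap ℤℓ F (η k) * B k := by
    intro η
    rw [hΨ]
    congr 1
    exact Finset.sum_congr rfl fun k _ => ed3_rat_smul_eq ℓ N (η k) (B k)
  have hg₀η : ∀ m, g₀ m = fun k => ((⟨g₀ m k, hg₀mem m k⟩ : ℤℓ) : ℚ) := fun m => rfl
  have hgmem : ∀ m, Ψ (g₀ m) ∈ gaussRing ℓ N := by
    intro m
    rw [hg₀η m, hΨ_int]
    exact Subring.mul_mem _ htinv (hsum_mem _)
  refine ⟨fun m => Ψ (g₀ m), fun m => ?_, hgmem, ?_⟩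
  · have h1 := Submodule.apply_mem_span_image_of_mem_span Ψ (hg₀span m)
    rw [← Set.range_comp] at h1
    have : Ψ ∘ c = v := funext hΨc
    rwa [this] at h1
  · rw [Fintype.linearIndependent_iff]
    intro γ hγ
    choose ĉ hĉ using fun m => ZMod.intCast_surjective (γ m)
    -- the combination lies in `ℓ O`
    have h1 : gaussRho ℓ N (∑ m, ((ĉ m : ℤ) : ↥(gaussRing ℓ N)) * ⟨Ψ (g₀ m), hgmem m⟩) = 0 := by
      rw [map_sum, ← hγ]
      refine Finset.sum_congr rfl fun m _ => ?_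
      rw [map_mul, map_intCast, ← hĉ m, Int.cast_smul_eq_zsmul, zsmul_eq_mul]
    obtain ⟨f', hf'⟩ := (gaussRho_eq_zero_iff ℓ N _).mp h1
    have h2 : ∑ m, ((ĉ m : ℤ) : F) * Ψ (g₀ m) = ((ℓ : ℕ) : F) * (f' : F) := by
      have := congrArg (fun z : ↥(gaussRing ℓ N) => (z : F)) hf'
      simpa using this
    -- the integral coordinate vector
    have hηmem : ∀ k, (∑ m, (ĉ m : ℚ) * g₀ m k) ∈ GaloisRep.ratLocalizedAt ℓ := fun k =>
      Subring.sum_mem _ fun m _ => Subring.mul_mem _ (intCast_mem _ _) (hg₀mem m k)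
    obtain ⟨η, hη⟩ : ∃ η : ι → ℤℓ, ∀ k, (η k : ℚ) = ∑ m, (ĉ m : ℚ) * g₀ m k :=
      ⟨fun k => ⟨_, hηmem k⟩, fun k => rfl⟩
    have h3 : Ψ (fun k => (η k : ℚ)) = ∑ m, ((ĉ m : ℤ) : F) * Ψ (g₀ m) := by
      have : (fun k => (η k : ℚ)) = ∑ m, (ĉ m : ℚ) • g₀ m := by
        funext k
        rw [hη k, Finset.sum_apply]
        rfl
      rw [this, map_sum]
      refine Finset.sum_congr rfl fun m _ => ?_
      rw [map_smul, Algebra.smul_def]
      congr 1
    have h4 : ∑ k, algebraMap ℤℓ F (η k) * B k = ((ℓ : ℕ) : F) * (t * (f' : F)) := by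
      have e := hΨ_int η
      rw [h3, h2] at e
      calc ∑ k, algebraMap ℤℓ F (η k) * B k
          = t * (t⁻¹ * ∑ k, algebraMap ℤℓ F (η k) * B k) := by
            rw [← mul_assoc, mul_inv_cancel₀ ht0, one_mul]
        _ = ((ℓ : ℕ) : F) * (t * (f' : F)) := by rw [← e]; ring
    have h5 : gaussRho ℓ N ⟨∑ k, algebraMap ℤℓ F (η k) * B k, hsum_mem η⟩ = 0 := by
      rw [gaussRho_eq_zero_iff]
      refine ⟨⟨t, ht⟩ * f', Subtype.ext ?_⟩
      show ∑ k, algebraMap ℤℓ F (η k) * B k = _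
      rw [h4]
      simp
    have h6 := hBind η (hsum_mem η) h5
    have h7 : ∀ k, (∑ m, (ĉ m : ℚ) * g₀ m k) / (ℓ : ℚ) ∈ GaloisRep.ratLocalizedAt ℓ := by
      intro k
      obtain ⟨b', hb'⟩ := (zlRed_eq_zero_iff ℓ (η k)).mp (h6 k)
      have : (∑ m, (ĉ m : ℚ) * g₀ m k) / (ℓ : ℚ) = (b' : ℚ) := by
        rw [← hη k, hb', Subring.coe_mul, coe_zlEll]
        field_simp
      rw [this]
      exact b'.2
    intro m
    have := hg₀ind ĉ h7 m
    rw [← hĉ m]
    exact (ZMod.intCast_zmod_eq_zero_iff_dvd _ _).mpr this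

/-- the monomials `j^e b_i` in an independent family `b` form an orthonormal system for the Gauss
valuation -/
theorem ed3_monomial_indep {n : ℕ} (b : Fin n → ↥(gaussRing ℓ N)) (hb : (coreFin ℓ N).Indep b)
    (D : ℕ) (η : Fin n × Fin (D + 1) → ℤℓ)
    (hmem : (∑ k, algebraMap ℤℓ F (η k) * (jFull N ^ (k.2 : ℕ) * (b k.1 : F))) ∈ gaussRing ℓ N)
    (h0 : gaussRho ℓ N
      ⟨∑ k, algebraMap ℤℓ F (η k) * (jFull N ^ (k.2 : ℕ) * (b k.1 : F)), hmem⟩ = 0) :
    ∀ k, zlRed ℓ (η k) = 0 := by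
  classical
  obtain ⟨Q, hQ⟩ : ∃ Q : Fin n → ℤℓ[X], ∀ i, Q i = ∑ e : Fin (D + 1), C (η (i, e)) * X ^ (e : ℕ) :=
    ⟨_, fun _ => rfl⟩
  have hQcoeff : ∀ i (e : Fin (D + 1)), (Q i).coeff (e : ℕ) = η (i, e) := by
    intro i e
    rw [hQ, finsetSum_coeff]
    simp only [coeff_C_mul_X_pow]
    rw [Finset.sum_eq_single e]
    · simp
    · intro e' _ hne
      rw [if_neg]
      intro h
      exact hne (Fin.ext h.symm)
    · intro h
      exact absurd (Finset.mem_univ e) h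
  have hQaeval : ∀ i, aeval (jFull N) (Q i) =
      ∑ e : Fin (D + 1), algebraMap ℤℓ F (η (i, e)) * jFull N ^ (e : ℕ) := by
    intro i
    rw [hQ, map_sum]
    refine Finset.sum_congr rfl fun e _ => ?_
    rw [map_mul, aeval_C, map_pow, aeval_X]
  have hQmem : ∀ i, aeval (jFull N) (Q i) ∈ Algebra.adjoin ℤℓ {jFull N} := fun i =>
    aeval_mem_adjoin_singleton _ _
  -- the relation inside `O`
  have hQO : ∀ i, aeval (jFull N) (Q i) ∈ gaussRing ℓ N := fun i =>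
    aeval_mem_gaussRing ℓ N (jFull_mem_gaussRing ℓ N) (Q i)
  have h1 : (⟨∑ k, algebraMap ℤℓ F (η k) * (jFull N ^ (k.2 : ℕ) * (b k.1 : F)), hmem⟩ :
      ↥(gaussRing ℓ N)) = ∑ i, ⟨aeval (jFull N) (Q i), hQO i⟩ * b i := by
    apply Subtype.ext
    rw [AddSubmonoidClass.coe_finsetSum]
    simp only [MulMemClass.coe_mul]
    rw [Fintype.sum_prod_type]
    refine Finset.sum_congr rfl fun i _ => ?_
    rw [hQaeval i, Finset.sum_mul]
    refine Finset.sum_congr rfl fun e _ => ?_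
    ring
  have h2 : ∑ i, gaussRho ℓ N ⟨aeval (jFull N) (Q i), hQO i⟩ * gaussRho ℓ N (b i) = 0 := by
    have := congrArg (gaussRho ℓ N) h1
    rw [map_sum] at this
    simp only [map_mul] at this
    rw [← this]
    exact h0
  have h3 : ∀ i, gaussRho ℓ N ⟨aeval (jFull N) (Q i), hQO i⟩ = 0 :=
    hb (fun i => ⟨aeval (jFull N) (Q i), hQmem i⟩) h2
  rintro ⟨i, e⟩
  have h4 : gaussRho ℓ N ⟨aeval (jFull N) (Q i),
      aeval_mem_gaussRing ℓ N (jFull_mem_gaussRing ℓ N) (Q i)⟩ = 0 := h3 i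
  rw [gaussRho_aeval ℓ N (jFull_mem_gaussRing ℓ N)] at h4
  have h5 : (Q i).map (zlRed ℓ) = 0 :=
    (transcendental_iff.mp (transcendental_gaussRho_jFull ℓ N)) _ h4
  have h6 := congrArg (fun R => R.coeff (e : ℕ)) h5
  simp only [Polynomial.coeff_map, Polynomial.coeff_zero] at h6
  rw [hQcoeff] at h6
  exact h6

/-- **(C), general form.**  For `ℓ ∤ N`, every finite `ℚ`-linearly independent family in
`ℚ(X₀(N))` spans a space with a basis in the Gauss valuation ring having `𝔽_ℓ`-linearly independent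
residues. -/
theorem ed3_exists_reduced_family_gen (hℓN : ¬ ℓ ∣ N) {d : ℕ} (v : Fin d → F)
    (hv : LinearIndependent ℚ v) :
    ∃ g : Fin d → F, (∀ i, g i ∈ Submodule.span ℚ (Set.range v)) ∧
      ∃ hg : ∀ i, g i ∈ gaussRing ℓ N,
        LinearIndependent (ZMod ℓ) (fun i => gaussRho ℓ N ⟨g i, hg i⟩) := by
  classical
  have hp : ℓ.Prime := Fact.out
  obtain ⟨n, b, hb, t, ht, htρ, k, P, hP⟩ := ed3_exists_repr ℓ N hℓN v
  obtain ⟨D, hD⟩ : ∃ D : ℕ, ∀ m i, (P m i).natDegree < D + 1 := by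
    refine ⟨Finset.univ.sup fun mi : Fin d × Fin n => (P mi.1 mi.2).natDegree, fun m i => ?_⟩
    exact Nat.lt_succ_of_le (Finset.le_sup (f := fun mi : Fin d × Fin n => (P mi.1 mi.2).natDegree)
      (Finset.mem_univ (m, i)))
  obtain ⟨B, hBdef⟩ : ∃ B : Fin n × Fin (D + 1) → F,
      ∀ k', B k' = jFull N ^ (k'.2 : ℕ) * (b k'.1 : F) := ⟨_, fun _ => rfl⟩
  obtain ⟨c, hcdef⟩ : ∃ c : Fin d → Fin n × Fin (D + 1) → ℚ,
      ∀ m k', c m k' = (((P m k'.1).coeff (k'.2 : ℕ) : ℤℓ) : ℚ) / (ℓ : ℚ) ^ k := ⟨_, fun _ _ => rfl⟩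
  have hB : ∀ k', B k' ∈ gaussRing ℓ N := fun k' => by
    rw [hBdef]
    exact Subring.mul_mem _ (Subring.pow_mem _ (jFull_mem_gaussRing ℓ N) _) (b k'.1).2
  have hBind : ∀ (η : Fin n × Fin (D + 1) → ℤℓ)
      (hmem : (∑ k', algebraMap ℤℓ F (η k') * B k') ∈ gaussRing ℓ N),
      gaussRho ℓ N ⟨∑ k', algebraMap ℤℓ F (η k') * B k', hmem⟩ = 0 →
        ∀ k', zlRed ℓ (η k') = 0 := by
    intro η hmem h0
    have e : ∑ k', algebraMap ℤℓ F (η k') * B k' =
        ∑ k', algebraMap ℤℓ F (η k') * (jFull N ^ (k'.2 : ℕ) * (b k'.1 : F)) :=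
      Finset.sum_congr rfl fun k' _ => by rw [hBdef]
    have hmem' := hmem
    rw [e] at hmem'
    refine ed3_monomial_indep ℓ N b hb D η hmem' ?_
    rw [← h0]
    congr 1
    exact Subtype.ext e.symm
  have haev : ∀ m i, aeval (jFull N) (P m i) =
      ∑ e : Fin (D + 1), (((P m i).coeff (e : ℕ) : ℤℓ) : ℚ) • jFull N ^ (e : ℕ) := by
    intro m i
    rw [aeval_eq_sum_range' (hD m i),
      Fin.sum_univ_eq_sum_range (fun e => (((P m i).coeff e : ℤℓ) : ℚ) • jFull N ^ e) (D + 1)]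
    refine Finset.sum_congr rfl fun e _ => ?_
    rw [ed3_rat_smul_eq, Algebra.smul_def]
  have hlk : ((ℓ : ℕ) : F) ^ k ≠ 0 := pow_ne_zero _ (by exact_mod_cast hp.ne_zero)
  have hlQ : ((ℓ : ℚ)) ^ k ≠ 0 := pow_ne_zero _ (by exact_mod_cast hp.ne_zero)
  have hc : ∀ m, t * v m = ∑ k', c m k' • B k' := by
    intro m
    apply mul_left_cancel₀ hlk
    rw [hP m, Fintype.sum_prod_type, Finset.mul_sum]
    refine Finset.sum_congr rfl fun i _ => ?_
    rw [haev m i, Finset.sum_mul, Finset.mul_sum]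
    refine Finset.sum_congr rfl fun e _ => ?_
    rw [hcdef, hBdef]
    simp only [Algebra.smul_def, map_div₀, map_pow, map_natCast]
    field_simp
  exact ed3_reduced_of_coords ℓ N B hB hBind t ht htρ v hv c hc

/-- **(C)** for `ℓ = 2` and prime level `p ≠ 2`, in the shape consumed by the genus bound (D3). -/
theorem ed3_exists_reduced_family (p : ℕ) [NeZero p] (hp : p.Prime) (hp2 : p ≠ 2) {d : ℕ}
    (v : Fin d → ↥(modularFunctionFieldFull p)) (hv : LinearIndependent ℚ v) :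
    ∃ g : Fin d → ↥(modularFunctionFieldFull p), (∀ i, g i ∈ Submodule.span ℚ (Set.range v)) ∧
      ∃ hg : ∀ i, g i ∈ gaussRing 2 p,
        LinearIndependent (ZMod 2) (fun i => gaussRho 2 p ⟨g i, hg i⟩) := by
  refine ed3_exists_reduced_family_gen 2 p ?_ v hv
  intro h
  rcases (Nat.dvd_prime hp).mp h with h | h
  · omega
  · exact hp2 h.symm

end Fermat.Agent.Eis
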