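import Mathlib
import Fermat.Agent.Lib.Igusa.GaussRing
import Fermat.Agent.Lib.Igusa.AlgCore

/-!
# P11 (D3, part C): the `ℓ`-adic echelon lemma, pure linear algebra core

A `d`-dimensional `ℚ`-subspace of `ℚ^ι` (`ι` finite) has a basis of vectors with coordinates in
`ℤ_(ℓ)` whose reductions modulo `ℓ` are linearly independent (pivot induction).
-/

set_option autoImplicit false

open Fermat.Agent.Igusa

namespace Fermat.Agent.Eis

variable (ℓ : ℕ) [Fact ℓ.Prime]

set_option quotPrecheck false in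
local notation "ℤℓ" => ↥(GaloisRep.ratLocalizedAt ℓ)

/-- `a / b ∈ ℤ_(ℓ)` for integers `a, b` with `ℓ ∤ b` -/
theorem ed3_div_mem (a : ℤ) {b : ℤ} (hb : ¬ (ℓ : ℤ) ∣ b) :
    (a : ℚ) / (b : ℚ) ∈ GaloisRep.ratLocalizedAt ℓ := by
  have hp : ℓ.Prime := Fact.out
  rw [mem_ratLocalizedAt_iff]
  have h1 : (((a : ℚ) / (b : ℚ)).den : ℤ) ∣ b := by
    have := Rat.den_dvd a b
    rwa [Rat.divInt_eq_div] at this
  rw [Nat.coprime_comm, Nat.Prime.coprime_iff_not_dvd hp]
  intro h2
  exact hb (dvd_trans (Int.natCast_dvd_natCast.mpr h2) h1)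

/-- if `c / ℓ ∈ ℤ_(ℓ)` for an integer `c` then `ℓ ∣ c` -/
theorem ed3_dvd_of_div_mem {c : ℤ} (h : (c : ℚ) / (ℓ : ℚ) ∈ GaloisRep.ratLocalizedAt ℓ) :
    (ℓ : ℤ) ∣ c := by
  have hp : ℓ.Prime := Fact.out
  have hl : (ℓ : ℚ) ≠ 0 := by exact_mod_cast hp.ne_zero
  have h1 : ((c : ℤ) : ℤℓ) = zlEll ℓ * ⟨_, h⟩ := by
    apply Subtype.ext
    rw [Subring.coe_mul, coe_zlEll]
    simp only [Subring.coe_intCast]
    field_simp
  have h2 := congrArg (zlRed ℓ) h1
  rw [map_mul, zlRed_zlEll, zero_mul, map_intCast] at h2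
  exact (ZMod.intCast_zmod_eq_zero_iff_dvd c ℓ).mp h2

/-- **The echelon lemma**: a linearly independent family in `ℚ^ι` spans a space with a basis
having coordinates in `ℤ_(ℓ)` and independent reductions (phrased with integer coefficients). -/
theorem ed3_echelon {ι : Type*} [Fintype ι] : ∀ (d : ℕ) (v : Fin d → ι → ℚ),
    LinearIndependent ℚ v →
    ∃ g : Fin d → ι → ℚ, (∀ m, g m ∈ Submodule.span ℚ (Set.range v)) ∧
      (∀ m k, g m k ∈ GaloisRep.ratLocalizedAt ℓ) ∧
      ∀ c : Fin d → ℤ, (∀ k, (∑ m, (c m : ℚ) * g m k) / (ℓ : ℚ) ∈ GaloisRep.ratLocalizedAt ℓ) →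
        ∀ m, (ℓ : ℤ) ∣ c m := by
  classical
  have hp : ℓ.Prime := Fact.out
  have hl : (ℓ : ℚ) ≠ 0 := by exact_mod_cast hp.ne_zero
  intro d
  induction d with
  | zero =>
    intro v _
    exact ⟨Fin.elim0, fun m => m.elim0, fun m => m.elim0, fun _ _ m => m.elim0⟩
  | succ d ih =>
    intro v hv
    -- a pivot for `v 0`
    have hv0 : v 0 ≠ 0 := hv.ne_zero 0
    -- clear denominators
    obtain ⟨D, hD0, z, hz⟩ : ∃ D : ℤ, D ≠ 0 ∧ ∃ z : ι → ℤ, ∀ k, v 0 k = (z k : ℚ) / (D : ℚ) := by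
      refine ⟨∏ k, ((v 0 k).den : ℤ), ?_, fun k => (v 0 k).num *
        ∏ k' ∈ Finset.univ.erase k, ((v 0 k').den : ℤ), fun k => ?_⟩
      · exact Finset.prod_ne_zero_iff.mpr fun k _ => by exact_mod_cast (v 0 k).den_nz
      · have h1 : (((v 0 k).den : ℤ) : ℚ) ≠ 0 := by exact_mod_cast (v 0 k).den_nz
        have h2 : ((∏ k' ∈ Finset.univ.erase k, ((v 0 k').den : ℤ) : ℤ) : ℚ) ≠ 0 := by
          have : (∏ k' ∈ Finset.univ.erase k, ((v 0 k').den : ℤ)) ≠ 0 :=
            Finset.prod_ne_zero_iff.mpr fun k' _ => by exact_mod_cast (v 0 k').den_nz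
          exact_mod_cast this
        rw [← Finset.mul_prod_erase Finset.univ _ (Finset.mem_univ k)]
        push_cast
        rw [mul_div_mul_right _ _ (by exact_mod_cast h2)]
        exact_mod_cast (Rat.num_div_den (v 0 k)).symm
    obtain ⟨k1, hk1⟩ : ∃ k1, z k1 ≠ 0 := by
      by_contra hcon
      push Not at hcon
      apply hv0
      funext k
      rw [hz k, hcon k]
      simp
    obtain ⟨e, z', hz', k₀, hk₀⟩ :=
      exists_primitive_of_prime (Nat.prime_iff_prime_int.mp hp) z k1 hk1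
    have hz'k₀ : z' k₀ ≠ 0 := fun h => hk₀ (h ▸ dvd_zero _)
    have hz'Q : ((z' k₀ : ℤ) : ℚ) ≠ 0 := by exact_mod_cast hz'k₀
    have hDQ : (D : ℚ) ≠ 0 := by exact_mod_cast hD0
    -- the normalised pivot vector
    obtain ⟨u, hu⟩ : ∃ u : ι → ℚ, u = fun k => (z' k : ℚ) / (z' k₀ : ℚ) := ⟨_, rfl⟩
    have hu_mem : ∀ k, u k ∈ GaloisRep.ratLocalizedAt ℓ := fun k => by
      rw [hu]; exact ed3_div_mem ℓ (z' k) hk₀
    have hu_k₀ : u k₀ = 1 := by rw [hu]; exact div_self hz'Q
    have hu_smul : u = ((D : ℚ) / ((ℓ : ℚ) ^ e * (z' k₀ : ℚ))) • v 0 := by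
      funext k
      rw [Pi.smul_apply, smul_eq_mul, hz k, hz' k, hu]
      push_cast
      field_simp
    have hspan_u : u ∈ Submodule.span ℚ (Set.range v) := by
      rw [hu_smul]
      exact Submodule.smul_mem _ _ (Submodule.subset_span ⟨0, rfl⟩)
    -- the reduced family
    obtain ⟨v', hv'⟩ : ∃ v' : Fin d → ι → ℚ, v' = fun m => v m.succ - (v m.succ k₀) • u :=
      ⟨_, rfl⟩
    have hv'k₀ : ∀ m, v' m k₀ = 0 := fun m => by
      rw [hv']
      show v m.succ k₀ - v m.succ k₀ * u k₀ = 0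
      rw [hu_k₀, mul_one, sub_self]
    have hv'span : ∀ m, v' m ∈ Submodule.span ℚ (Set.range v) := fun m => by
      rw [hv']
      exact Submodule.sub_mem _ (Submodule.subset_span ⟨m.succ, rfl⟩)
        (Submodule.smul_mem _ _ hspan_u)
    have hv'li : LinearIndependent ℚ v' := by
      rw [Fintype.linearIndependent_iff] at hv ⊢
      intro a ha m
      set a0 : ℚ := -(∑ m, a m * v m.succ k₀) * ((D : ℚ) / ((ℓ : ℚ) ^ e * (z' k₀ : ℚ))) with ha0
      have e1 : ∑ m, a m • v' m =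
          ∑ m, a m • v m.succ - (∑ m, a m * v m.succ k₀) • u := by
        rw [hv']
        simp only [smul_sub, Finset.sum_sub_distrib, smul_smul, Finset.sum_smul]
      rw [e1] at ha
      have e2 : a0 • v 0 = -((∑ m, a m * v m.succ k₀) • u) := by
        rw [ha0, hu_smul, smul_smul, neg_mul, neg_smul]
      have := hv (Fin.cons a0 a) (by
        rw [Fin.sum_univ_succ]
        simp only [Fin.cons_zero, Fin.cons_succ]
        rw [e2, ← ha]
        abel) m.succ
      simpa using this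
    obtain ⟨g', hg'span, hg'mem, hg'ind⟩ := ih v' hv'li
    have hg'k₀ : ∀ m, g' m k₀ = 0 := by
      intro m
      have hle : Submodule.span ℚ (Set.range v') ≤ LinearMap.ker (LinearMap.proj (R := ℚ)
          (φ := fun _ : ι => ℚ) k₀) := by
        rw [Submodule.span_le]
        rintro _ ⟨m', rfl⟩
        exact hv'k₀ m'
      exact hle (hg'span m)
    refine ⟨Fin.cons u g', ?_, ?_, ?_⟩
    · intro m
      refine Fin.cases ?_ (fun m' => ?_) m
      · simpa using hspan_u
      · simp only [Fin.cons_succ]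
        have hle : Submodule.span ℚ (Set.range v') ≤ Submodule.span ℚ (Set.range v) := by
          rw [Submodule.span_le]
          rintro _ ⟨m'', rfl⟩
          exact hv'span m''
        exact hle (hg'span m')
    · intro m k
      refine Fin.cases ?_ (fun m' => ?_) m
      · simpa using hu_mem k
      · simpa using hg'mem m' k
    · intro c hc
      have h0 : (c 0 : ℚ) / (ℓ : ℚ) ∈ GaloisRep.ratLocalizedAt ℓ := by
        have := hc k₀
        rw [Fin.sum_univ_succ] at this
        simp only [Fin.cons_zero, Fin.cons_succ, hg'k₀, mul_zero, Finset.sum_const_zero,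
          add_zero, hu_k₀, mul_one] at this
        exact this
      have hrest : ∀ m, (ℓ : ℤ) ∣ c (Fin.succ m) := by
        apply hg'ind (fun m => c m.succ)
        intro k
        have h1 := hc k
        rw [Fin.sum_univ_succ] at h1
        simp only [Fin.cons_zero, Fin.cons_succ] at h1
        have h2 : (∑ m : Fin d, (c m.succ : ℚ) * g' m k) / (ℓ : ℚ) =
            ((c 0 : ℚ) * u k + ∑ m : Fin d, (c m.succ : ℚ) * g' m k) / (ℓ : ℚ) -
              (c 0 : ℚ) / (ℓ : ℚ) * u k := by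
          field_simp
          ring
        rw [h2]
        exact Subring.sub_mem _ h1 (Subring.mul_mem _ h0 (hu_mem k))
      intro m
      refine Fin.cases ?_ (fun m' => ?_) m
      · exact ed3_dvd_of_div_mem ℓ h0
      · exact hrest m'

end Fermat.Agent.Eis
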