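/-
P11 / S16 (D3), part (A): in a function field `F / K` of one variable (characteristic `0`, generator
`x`), a function regular at all places where `x` is regular is integral over `K[x]`; a function in
`L(n (x)_∞)` is integral over `K[x]`, and `f x⁻ⁿ` is integral over `K[x⁻¹]`.
-/
import Mathlib
import Fermat.Agent.Lib.Curve.Riemann

set_option autoImplicit false
set_option linter.style.haveILetI false
set_option linter.unusedSectionVars false

namespace Fermat.Agent.Eis

open AlgebraicCurve IsDedekindDomain Fermat.Agent.Curve Fermat.Agent.Curve.PlaceAux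

variable {K F : Type*} [Field K] [Field F] [Algebra K F]

/-- a function which is regular at every place where `x` is regular is integral over `K[x]` -/
theorem ed3_isIntegral_of_regular [CharZero K] {x : F} (hx : IsFunctionFieldGen K F x) (f : F)
    (h : ∀ v : Place K F, x ∈ v.toValuationSubring → f ∈ v.toValuationSubring) :
    IsIntegral (Ax K x) f := by
  haveI : Fact (IsFunctionFieldGen K F x) := ⟨hx⟩
  haveI : IsDedekindDomain (Bx K x) := Bx.isDedekindDomain
  haveI : IsFractionRing (Bx K x) F := Bx.isFractionRing
  have hmem : f ∈ (algebraMap (Bx K x) F).range := by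
    refine HeightOneSpectrum.mem_integers_of_valuation_le_one F f (fun w => ?_)
    have hxw : x ∈ (Place.ofHeightOneSpectrum (K := K) (F := F) w).toValuationSubring := by
      rw [Place.ofHeightOneSpectrum_toValuationSubring, Valuation.mem_valuationSubring_iff]
      have hxB : x ∈ Bx K x :=
        (Bx K x).algebraMap_mem ⟨x, Algebra.self_mem_adjoin_singleton K x⟩
      exact HeightOneSpectrum.valuation_le_one w (⟨x, hxB⟩ : Bx K x)
    have hf := h _ hxw
    rwa [Place.ofHeightOneSpectrum_toValuationSubring, Valuation.mem_valuationSubring_iff] at hf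
  obtain ⟨b, rfl⟩ := hmem
  exact b.2

/-- an element of `L(n (x)_∞)` is integral over `K[x]`, and `f x⁻ⁿ` is integral over `K[x⁻¹]` -/
theorem ed3_isIntegral_of_mem_riemannRochSpace [CharZero K] [IsAlgClosed K] {x : F}
    (hx : IsFunctionFieldGen K F x) (n : ℕ) {f : F}
    (hf : f ∈ riemannRochSpace ((n : ℤ) • RRAux.poleDiv hx x)) :
    IsIntegral (Ax K x) f ∧ IsIntegral (Ax K x⁻¹) (f * x⁻¹ ^ n) := by
  have hx0 : x ≠ 0 := fun h0 => hx.transcendental (h0 ▸ isAlgebraic_zero)
  rw [mem_riemannRochSpace_iff] at hf
  constructor
  · refine ed3_isIntegral_of_regular hx f (fun v hxv => ?_)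
    rw [PlaceAux.mem_iff] at hxv ⊢
    have hord : 0 ≤ v.ord x := hxv.resolve_left hx0
    rcases hf v with h0 | h1
    · exact Or.inl h0
    · right
      rw [Finsupp.smul_apply, RRAux.poleDiv_apply, max_eq_left (by omega), smul_zero,
        neg_zero] at h1
      exact h1
  · refine ed3_isIntegral_of_regular hx.inv _ (fun v hxv => ?_)
    rw [PlaceAux.mem_iff] at hxv ⊢
    have hord : 0 ≤ v.ord x⁻¹ := hxv.resolve_left (inv_ne_zero hx0)
    rw [v.ord_inv] at hord
    rcases hf v with h0 | h1
    · left
      rw [h0, zero_mul]
    · by_cases hf0 : f = 0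
      · left
        rw [hf0, zero_mul]
      right
      rw [Finsupp.smul_apply, RRAux.poleDiv_apply, max_eq_right (by omega), smul_eq_mul] at h1
      rw [v.ord_mul hf0 (pow_ne_zero n (inv_ne_zero hx0)), ← zpow_natCast, v.ord_zpow,
        v.ord_inv]
      nlinarith

end Fermat.Agent.Eis
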